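import Fermat.Agent.S19.KM.GR.Defs
import Fermat.Agent.S19.KM.Red.Frame

/-!
# S19 / KM route, layer [D], section D0: first consequences of good reduction data.

`M = (x)_∞`, `Mk = (xk)_∞` are effective of the same degree `n > 0`, the frames of `L(iM)` give
`redSub (L (iM)) = L (i Mk)` and `dim redSub W = dim W` for `W ≤ L(iM)`; comparing `l(iM)` and
`l(i Mk)` for large `i` gives the equality of the genera.
-/

set_option autoImplicit false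

noncomputable section

namespace Fermat.Agent.S19.KM

open AlgebraicCurve Fermat.Agent.S24.FF Fermat.Agent.Lib.RR Module Submodule

variable {K F k Fk : Type*} [Field K] [Field F] [Algebra K F] [Field k] [Field Fk] [Algebra k Fk]

variable [IsCurve K F] [IsCurve k Fk] (𝔊 : GRData K F k Fk)

namespace GRData

theorem M_nonneg : 0 ≤ 𝔊.M := poleDiv_nonneg _

theorem Mk_nonneg : 0 ≤ 𝔊.Mk := poleDiv_nonneg _

theorem n_pos : 0 < 𝔊.n := by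
  have hfd : FiniteDimensional (IntermediateField.adjoin K {𝔊.x}) F := IsFF1.finite 𝔊.x 𝔊.x_tr
  have h : 𝔊.n = (finrank (IntermediateField.adjoin K {𝔊.x}) F : ℤ) := degree_poleDiv 𝔊.x 𝔊.x_tr
  rw [h]
  exact_mod_cast (Module.finrank_pos : 0 < finrank (IntermediateField.adjoin K {𝔊.x}) F)

theorem dg_Mk : dg 𝔊.Mk = 𝔊.n := 𝔊.deg_eq.symm

theorem smul_M {g : SemilinearAut K F} (hg : g ∈ 𝔊.Γ) : g • 𝔊.M = 𝔊.M := by
  ext w
  have hx : g⁻¹ • 𝔊.x = 𝔊.x := 𝔊.Γ_x g⁻¹ (𝔊.Γ.inv_mem hg)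
  have h := SemilinearAut.ord_smul g⁻¹ w 𝔊.x
  rw [hx] at h
  rw [SemilinearAut.divisor_smul_apply]
  change poleDiv 𝔊.x (g⁻¹ • w) = poleDiv 𝔊.x w
  rw [poleDiv_apply, poleDiv_apply, h]

theorem redSub_L {i : ℕ} (hi : 𝔊.i₀ ≤ i) : 𝔊.redSub (L (i • 𝔊.M)) = L (i • 𝔊.Mk) := by
  obtain ⟨m, v, vb, hfr, hv, hvb, -⟩ := 𝔊.exists_frame i hi
  change 𝔊.redSub (L (i • poleDiv (K := K) 𝔊.x)) = L (i • poleDiv (K := k) 𝔊.xk)
  rw [← hv, ← hvb]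
  exact hfr.redSub_span

theorem finrank_redSub {i : ℕ} (hi : 𝔊.i₀ ≤ i) {W : Submodule K F} (hW : W ≤ L (i • 𝔊.M)) :
    finrank k (𝔊.redSub W) = finrank K W := by
  obtain ⟨m, v, vb, hfr, hv, -, -⟩ := 𝔊.exists_frame i hi
  refine hfr.finrank_redSub ?_
  rw [hv]
  exact hW

/-- `l(iM) = l(i Mk)` -/
theorem ell_nsmul_M {i : ℕ} (hi : 𝔊.i₀ ≤ i) : ell (i • 𝔊.Mk) = ell (i • 𝔊.M) := by
  have h := 𝔊.finrank_redSub hi (le_refl (L (i • 𝔊.M)))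
  rw [𝔊.redSub_L hi] at h
  exact h

theorem dg_nsmul_M (i : ℕ) : dg (i • 𝔊.M) = i * 𝔊.n := by
  change Divisor.degree (i • 𝔊.M) = _
  rw [map_nsmul, nsmul_eq_mul]
  rfl

theorem dg_nsmul_Mk (i : ℕ) : dg (i • 𝔊.Mk) = i * 𝔊.n := by
  change Divisor.degree (i • 𝔊.Mk) = _
  rw [map_nsmul, nsmul_eq_mul]
  exact congrArg _ 𝔊.dg_Mk

theorem le_mul_n (i : ℕ) : (i : ℤ) ≤ i * 𝔊.n := by
  have h1 : (1 : ℤ) ≤ 𝔊.n := 𝔊.n_pos
  have h2 : (0 : ℤ) ≤ i := Int.natCast_nonneg i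
  nlinarith

include 𝔊 in
/-- compare `l(iM)` and `l(i Mk)` for large `i` -/
theorem genus_eq : gen K F = gen k Fk := by
  set i : ℕ := max 𝔊.i₀ (max (bd K F).toNat (bd k Fk).toNat) with hi
  have h0 : 𝔊.i₀ ≤ i := le_max_left _ _
  have h1 : bd K F ≤ i := by
    refine (Int.self_le_toNat _).trans ?_
    exact_mod_cast (le_max_left _ _).trans (le_max_right 𝔊.i₀ _)
  have h2 : bd k Fk ≤ i := by
    refine (Int.self_le_toNat _).trans ?_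
    exact_mod_cast (le_max_right _ _).trans (le_max_right 𝔊.i₀ _)
  have e1 : (ell (i • 𝔊.M) : ℤ) = dg (i • 𝔊.M) + 1 - gen K F :=
    ell_eq (by rw [𝔊.dg_nsmul_M]; exact h1.trans (𝔊.le_mul_n i))
  have e2 : (ell (i • 𝔊.Mk) : ℤ) = dg (i • 𝔊.Mk) + 1 - gen k Fk :=
    ell_eq (by rw [𝔊.dg_nsmul_Mk]; exact h2.trans (𝔊.le_mul_n i))
  rw [𝔊.ell_nsmul_M h0, e1, 𝔊.dg_nsmul_M, 𝔊.dg_nsmul_Mk] at e2
  linarith

theorem exists_big (d : ℤ) : ∃ i, ∀ j, i ≤ j → 𝔊.Big d j := by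
  refine ⟨max 𝔊.i₀ (max (bd K F + d + gen K F + 1).toNat (bd k Fk + d + gen K F + 1).toNat),
    fun j hj => ⟨(le_max_left _ _).trans hj, ?_, ?_⟩⟩
  · refine (Int.self_le_toNat _).trans (le_trans ?_ (𝔊.le_mul_n j))
    exact_mod_cast ((le_max_left _ _).trans (le_max_right 𝔊.i₀ _)).trans hj
  · refine (Int.self_le_toNat _).trans (le_trans ?_ (𝔊.le_mul_n j))
    exact_mod_cast ((le_max_right _ _).trans (le_max_right 𝔊.i₀ _)).trans hj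

theorem Big.mono {d d' : ℤ} {i i' : ℕ} (h : 𝔊.Big d i) (hd : d' ≤ d) (hi : i ≤ i') : 𝔊.Big d' i' := by
  obtain ⟨h0, h1, h2⟩ := h
  have hn : (0 : ℤ) ≤ 𝔊.n := 𝔊.n_pos.le
  have hii : (i : ℤ) * 𝔊.n ≤ i' * 𝔊.n := mul_le_mul_of_nonneg_right (by exact_mod_cast hi) hn
  exact ⟨h0.trans hi, by linarith, by linarith⟩

/-- nonzero elements of `L(iM)` can be scaled to have nonzero reduction -/
theorem exists_scale {i : ℕ} (hi : 𝔊.i₀ ≤ i) {f : F} (hf : f ∈ L (i • 𝔊.M)) (hf0 : f ≠ 0) :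
    ∃ c : K, c ≠ 0 ∧ ∃ fb : Fk, fb ≠ 0 ∧ 𝔊.Red (c • f) fb := by
  obtain ⟨m, v, vb, hfr, hv, -, -⟩ := 𝔊.exists_frame i hi
  refine hfr.exists_scale ?_ hf0
  rw [hv]
  exact hf

end GRData

end Fermat.Agent.S19.KM
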