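import Fermat.Agent.S19.KM.Deuring.Basic
import Fermat.Agent.S19.KM.Curve.Graded
import Fermat.Agent.S19.KM.Curve.Bpf
import Fermat.Agent.S19.KM.Red.Basic

/-!
# S19 / KM route, layer [D], section D1 : existence and uniqueness of the reduction of an effective
divisor.   Owner: helper234.
-/

set_option autoImplicit false

noncomputable section

namespace Fermat.Agent.S19.KM

open AlgebraicCurve Fermat.Agent.S24.FF Fermat.Agent.Lib.RR Module Submodule

variable {K F k Fk : Type*} [Field K] [Field F] [Algebra K F] [Field k] [Field Fk] [Algebra k Fk]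

variable [IsCurve K F] [IsCurve k Fk] (𝔊 : GRData K F k Fk)

namespace GRData

namespace ExistsAux

theorem gen_nonneg (K F : Type*) [Field K] [Field F] [Algebra K F] : 0 ≤ gen K F :=
  Int.natCast_nonneg _

theorem dg_sub_M (i : ℕ) (E : Divisor K F) : dg (i • 𝔊.M - E) = i * 𝔊.n - dg E := by
  simp only [dg, n, map_sub, map_nsmul, nsmul_eq_mul]

theorem dg_sub_Mk (i : ℕ) (Eb : Divisor k Fk) : dg (i • 𝔊.Mk - Eb) = i * 𝔊.n - dg Eb := by
  rw [← 𝔊.dg_Mk]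
  simp only [dg, map_sub, map_nsmul, nsmul_eq_mul]

theorem L_sub_le {i : ℕ} {E : Divisor K F} (hE : 0 ≤ E) : L (i • 𝔊.M - E) ≤ L (i • 𝔊.M) :=
  L_mono (sub_le_self _ hE)

end ExistsAux

open ExistsAux

/-- apply `exists_eq_L_of_graded` on `Fk` to `I i = redSub (L (iM - E))` -/
theorem exists_isRdiv {E : Divisor K F} (hE : 0 ≤ E) : ∃ Eb, 𝔊.IsRdiv E Eb := by
  classical
  have hd : 0 ≤ dg E := degree_nonneg hE
  have hex : ∃ i, 𝔊.Big (dg E) i := by
    obtain ⟨i, hi⟩ := 𝔊.exists_big (dg E)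
    exact ⟨i, hi i le_rfl⟩
  have hbig : ∀ i, Nat.find hex ≤ i → 𝔊.Big (dg E) i := fun i hi =>
    (Nat.find_spec hex).mono 𝔊 le_rfl hi
  have hbig' : ∀ i, 𝔊.Big (dg E) i → Nat.find hex ≤ i := fun i hi => Nat.find_min' hex hi
  obtain ⟨Eb, hEb, hdeg, hI⟩ := exists_eq_L_of_graded (K := k) (F := Fk) 𝔊.Mk (dg E)
    (Nat.find hex) hd
    (by
      have := (Nat.find_spec hex).2.2
      rw [𝔊.dg_Mk, ← 𝔊.genus_eq]
      exact this)
    (fun i => 𝔊.redSub (L (i • 𝔊.M - E)))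
    (fun i hi => by
      rw [← 𝔊.redSub_L (hbig i hi).1]
      exact RedData.redSub_mono (L_sub_le 𝔊 hE))
    (fun i hi => by
      have hB := hbig i hi
      rw [𝔊.finrank_redSub hB.1 (L_sub_le 𝔊 hE), 𝔊.dg_Mk, ← 𝔊.genus_eq]
      have h1 : bd K F ≤ dg (i • 𝔊.M - E) := by
        rw [dg_sub_M]
        have := hB.2.1
        have := gen_nonneg K F
        linarith
      have h2 := ell_eq h1
      rw [dg_sub_M] at h2
      exact h2)
    (fun i j hi hj => by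
      rw [← 𝔊.redSub_L (hbig j hj).1]
      refine (RedData.redSub_mul_le _ _).trans (RedData.redSub_mono ?_)
      refine (L_mul_le _ _).trans (le_of_eq ?_)
      congr 1
      rw [add_smul]
      abel)
  exact ⟨Eb, hE, hEb, hdeg, fun i hi => hI i (hbig' i hi)⟩

theorem IsRdiv.unique {E : Divisor K F} {Eb Eb' : Divisor k Fk} (h : 𝔊.IsRdiv E Eb)
    (h' : 𝔊.IsRdiv E Eb') : Eb = Eb' := by
  obtain ⟨i, hi⟩ := 𝔊.exists_big (dg E)
  have hB := hi i le_rfl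
  have e : L (i • 𝔊.Mk - Eb) = L (i • 𝔊.Mk - Eb') := (h.2.2.2 i hB).symm.trans (h'.2.2.2 i hB)
  have hg := gen_nonneg K F
  have h1 : bd k Fk + 1 ≤ dg (i • 𝔊.Mk - Eb) := by
    rw [dg_sub_Mk, h.2.2.1]
    have := hB.2.2
    linarith
  have h2 : bd k Fk + 1 ≤ dg (i • 𝔊.Mk - Eb') := by
    rw [dg_sub_Mk, h'.2.2.1]
    have := hB.2.2
    linarith
  exact sub_right_injective (eq_of_L_eq h1 h2 e)

/-- criterion: one inclusion for one large `i` is enough -/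
theorem isRdiv_of_le {E : Divisor K F} {Eb : Divisor k Fk} (hE : 0 ≤ E) (hEb : 0 ≤ Eb)
    (hdeg : dg Eb = dg E) {i : ℕ} (hi : 𝔊.Big (dg E) i)
    (hle : L (i • 𝔊.Mk - Eb) ≤ 𝔊.redSub (L (i • 𝔊.M - E))) : 𝔊.IsRdiv E Eb := by
  have _ := hEb
  obtain ⟨Eb', h'⟩ := 𝔊.exists_isRdiv hE
  rw [h'.2.2.2 i hi] at hle
  have hg := gen_nonneg K F
  have h1 : bd k Fk + 1 ≤ dg (i • 𝔊.Mk - Eb) := by
    rw [dg_sub_Mk, hdeg]
    have := hi.2.2
    linarith
  have h2 : i • 𝔊.Mk - Eb ≤ i • 𝔊.Mk - Eb' := (L_le_L_iff h1).1 hle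
  have h3 : 0 ≤ Eb - Eb' := sub_nonneg.2 ((sub_le_sub_iff_left _).1 h2)
  have h4 : dg (Eb - Eb') = 0 := by
    simp only [dg, map_sub]
    have e1 : dg Eb = dg E := hdeg
    have e2 : dg Eb' = dg E := h'.2.2.1
    simp only [dg] at e1 e2
    rw [e1, e2, sub_self]
  have h5 : Eb = Eb' := sub_eq_zero.1 (eq_zero_of_degree_eq_zero h3 h4)
  exact h5 ▸ h'

end GRData

end Fermat.Agent.S19.KM
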