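import Fermat.Agent.S19.KM.Curve.Basic
import Fermat.Agent.S19.KM.Curve.Mul
import Fermat.Agent.S19.KM.Red.Basic
import Fermat.Agent.S19.KM.Deuring.Basic
import Fermat.Agent.S19.KM.Deuring.Exists

/-!
# S19 / KM route: layer [D], section D2 (reduction of divisors is additive)
Owner: helper195.
-/

set_option autoImplicit false

noncomputable section

namespace Fermat.Agent.S19.KM

open AlgebraicCurve Fermat.Agent.S24.FF Fermat.Agent.Lib.RR Module Submodule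

variable {K F k Fk : Type*} [Field K] [Field F] [Algebra K F] [Field k] [Field Fk] [Algebra k Fk]

variable [IsCurve K F] [IsCurve k Fk] (𝔊 : GRData K F k Fk)

namespace GRData

/-! ### D2 : file `Deuring/Add.lean` -/

omit [IsCurve K F] in
theorem Add.dg_add (D D' : Divisor K F) : dg (D + D') = dg D + dg D' :=
  map_add Divisor.degree D D'

omit [IsCurve K F] in
theorem Add.dg_sub (D D' : Divisor K F) : dg (D - D') = dg D - dg D' :=
  map_sub Divisor.degree D D'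

omit [IsCurve K F] in
theorem Add.dg_nsmul (m : ℕ) (D : Divisor K F) : dg (m • D) = m * dg D := by
  show Divisor.degree (m • D) = m * Divisor.degree D
  rw [map_nsmul, nsmul_eq_mul]

theorem IsRdiv.add {E E' : Divisor K F} {Eb Eb' : Divisor k Fk} (h : 𝔊.IsRdiv E Eb)
    (h' : 𝔊.IsRdiv E' Eb') : 𝔊.IsRdiv (E + E') (Eb + Eb') := by
  obtain ⟨hE, hEb, hdeg, hred⟩ := h
  obtain ⟨hE', hEb', hdeg', hred'⟩ := h'
  have hn : 0 < 𝔊.n := 𝔊.n_pos
  have hg : 0 ≤ gen K F := Int.natCast_nonneg _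
  have hbK : 0 ≤ bd K F := bd_nonneg
  have hbk : 0 ≤ bd k Fk := bd_nonneg
  have hdE : 0 ≤ dg E := degree_nonneg hE
  have hdE' : 0 ≤ dg E' := degree_nonneg hE'
  -- choice of `i` and `j`
  obtain ⟨i, hi⟩ := 𝔊.exists_big (dg E)
  have hi : 𝔊.Big (dg E) i := hi i le_rfl
  obtain ⟨j, hj⟩ := 𝔊.exists_big (dg E' + i * 𝔊.n)
  have hj : 𝔊.Big (dg E' + i * 𝔊.n) j := hj j le_rfl
  have hin : 0 ≤ (i : ℤ) * 𝔊.n := mul_nonneg (Int.natCast_nonneg _) hn.le
  have hj' : 𝔊.Big (dg E') j := Big.mono 𝔊 hj (by linarith) le_rfl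
  have hdM : ∀ m : ℕ, dg (m • 𝔊.Mk) = m * 𝔊.n := by
    intro m
    rw [Add.dg_nsmul, 𝔊.dg_Mk]
  have hbig : 𝔊.Big (dg (E + E')) (i + j) := by
    obtain ⟨a1, a2, a3⟩ := hi
    obtain ⟨b1, b2, b3⟩ := hj
    refine ⟨by omega, ?_, ?_⟩
    · rw [Add.dg_add]; push_cast; nlinarith
    · rw [Add.dg_add]; push_cast; nlinarith
  refine 𝔊.isRdiv_of_le (add_nonneg hE hE') (add_nonneg hEb hEb')
    (by rw [Add.dg_add, Add.dg_add, hdeg, hdeg']) hbig ?_
  have e1 : (i + j) • 𝔊.Mk - (Eb + Eb') = (i • 𝔊.Mk - Eb) + (j • 𝔊.Mk - Eb') := by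
    rw [add_smul]; abel
  have e2 : (i + j) • 𝔊.M - (E + E') = (i • 𝔊.M - E) + (j • 𝔊.M - E') := by
    rw [add_smul]; abel
  have hmul : L (i • 𝔊.Mk - Eb) * L (j • 𝔊.Mk - Eb') =
      L ((i • 𝔊.Mk - Eb) + (j • 𝔊.Mk - Eb')) := by
    apply L_mul_L
    · rw [Add.dg_sub, hdM, hdeg]
      linarith [hi.2.2]
    · rw [Add.dg_sub, Add.dg_sub, hdM, hdM, hdeg, hdeg']
      linarith [hj.2.2]
  rw [e1, e2, ← hmul, ← hred i hi, ← hred' j hj']
  exact (RedData.redSub_mul_le _ _).trans (RedData.redSub_mono (L_mul_le _ _))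

theorem isRdiv_zero : 𝔊.IsRdiv 0 0 := by
  refine ⟨le_rfl, le_rfl, by simp, fun i hi => ?_⟩
  rw [sub_zero, sub_zero]
  exact 𝔊.redSub_L hi.1

theorem IsRdiv.sum {J : Type*} (t : Finset J) {E : J → Divisor K F} {Eb : J → Divisor k Fk}
    (h : ∀ j ∈ t, 𝔊.IsRdiv (E j) (Eb j)) : 𝔊.IsRdiv (∑ j ∈ t, E j) (∑ j ∈ t, Eb j) := by
  classical
  induction t using Finset.induction_on with
  | empty => simpa using 𝔊.isRdiv_zero
  | insert a s ha ih =>
    rw [Finset.sum_insert ha, Finset.sum_insert ha]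
    exact IsRdiv.add 𝔊 (h a (Finset.mem_insert_self a s))
      (ih fun j hj => h j (Finset.mem_insert_of_mem hj))

/-- the reduction of a place is a place -/
theorem exists_isRdiv_pt (P : Place K F) : ∃ Q : Place k Fk, 𝔊.IsRdiv (pt P) (pt Q) := by
  have hP : (0 : Divisor K F) ≤ pt P := Finsupp.single_nonneg.2 zero_le_one
  obtain ⟨Eb, hEb⟩ := 𝔊.exists_isRdiv hP
  obtain ⟨Q, rfl⟩ := exists_eq_pt hEb.2.1 (by rw [hEb.2.2.1, dg_pt])
  exact ⟨Q, hEb⟩

end GRData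

end Fermat.Agent.S19.KM
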