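import Fermat.Agent.S19.KM.GR.Semilinear
import Fermat.Agent.S19.KM.GR.Dec
import Fermat.Agent.S19.KM.Deuring.Basic

/-!
# S19 / KM route, layer [D], section D5: reduction of divisors and the Galois action
-/

set_option autoImplicit false

noncomputable section

namespace Fermat.Agent.S19.KM

open AlgebraicCurve Fermat.Agent.S24.FF Fermat.Agent.Lib.RR Module Submodule

variable {K F k Fk : Type*} [Field K] [Field F] [Algebra K F] [Field k] [Field Fk] [Algebra k Fk]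

variable [IsCurve K F] [IsCurve k Fk] (𝔊 : GRData K F k Fk)

namespace GRData

/-- `L(iM - gE) = g L(iM - E)` for `g ∈ Γ`. -/
theorem L_sub_smul {g : SemilinearAut K F} (hg : g ∈ 𝔊.Γ) (i : ℕ) (E : Divisor K F) :
    L (i • 𝔊.M - g • E) = mapSub g (L (i • 𝔊.M - E)) := by
  rw [mapSub_L, smul_sub, smul_comm g i 𝔊.M, 𝔊.smul_M hg]

theorem IsRdiv.smul_ine {E : Divisor K F} {Eb : Divisor k Fk} (h : 𝔊.IsRdiv E Eb)
    {g : SemilinearAut K F} (hg : g ∈ 𝔊.Γ) (hi : 𝔊.IsIne g) : 𝔊.IsRdiv (g • E) Eb := by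
  obtain ⟨hE, hEb, hdeg, hred⟩ := h
  refine ⟨(smul_nonneg_iff g E).mpr hE, hEb, ?_, ?_⟩
  · rw [hdeg]
    exact (SemilinearAut.degree_smul g E).symm
  · intro i hbig
    have hdg : dg (g • E) = dg E := SemilinearAut.degree_smul g E
    rw [hdg] at hbig
    rw [𝔊.L_sub_smul hg, hi.redSub_mapSub, hred i hbig]

theorem exists_smul_dec {g : SemilinearAut K F} (hg : g ∈ 𝔊.Γ) (hd : 𝔊.IsDec g) :
    ∃ gb : SemilinearAut k Fk, ∀ (E : Divisor K F) (Eb : Divisor k Fk),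
      𝔊.IsRdiv E Eb → 𝔊.IsRdiv (g • E) (gb • Eb) := by
  obtain ⟨gb, hgb, hsub⟩ := hd.exists_resAut 𝔊.red_surjective
  have hxk : gb • 𝔊.xk = 𝔊.xk := by
    have h1 := hgb _ _ 𝔊.red_x
    rw [𝔊.Γ_x g hg] at h1
    exact h1.unique 𝔊.red_x
  have hMk : gb • 𝔊.Mk = 𝔊.Mk := by
    unfold GRData.Mk
    rw [smul_poleDiv, hxk]
  refine ⟨gb, ?_⟩
  rintro E Eb ⟨hE, hEb, hdeg, hred⟩
  have hdg : dg (g • E) = dg E := SemilinearAut.degree_smul g E
  refine ⟨(smul_nonneg_iff g E).mpr hE, (smul_nonneg_iff gb Eb).mpr hEb, ?_, ?_⟩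
  · rw [hdg, ← hdeg]
    exact SemilinearAut.degree_smul gb Eb
  · intro i hbig
    rw [hdg] at hbig
    rw [𝔊.L_sub_smul hg, hsub, hred i hbig, mapSub_L, smul_sub, smul_comm gb i 𝔊.Mk, hMk]

end GRData

end Fermat.Agent.S19.KM
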