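import Fermat.Agent.S19.KM.Curve.Basic
import Fermat.Agent.S19.KM.Curve.Colon
import Fermat.Agent.S19.KM.Red.Basic
import Fermat.Agent.S19.KM.Deuring.Basic
import Fermat.Agent.S19.KM.Deuring.Exists
import Fermat.Agent.S19.KM.Deuring.Add

/-!
# S19 / KM route, layer [D], section D3: principal divisors, linear equivalence, semicontinuity

Architect helper19, proofs helper222.  Complete proofs; uses `colon_L_of_le` (C2, `Curve/Colon.lean`),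
D0 (`Deuring/Basic.lean`), D1 (`Deuring/Exists.lean`), D2 (`Deuring/Add.lean`) with the statements of
the blueprint `WIP/DeuringBP.lean`.
-/

set_option autoImplicit false

noncomputable section

namespace Fermat.Agent.S19.KM

open AlgebraicCurve Fermat.Agent.S24.FF Fermat.Agent.Lib.RR Module Submodule

variable {K F k Fk : Type*} [Field K] [Field F] [Algebra K F] [Field k] [Field Fk] [Algebra k Fk]

theorem principal_divOf_one [IsCurve K F] : divOf (K := K) (1 : F) = 0 := by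
  ext v
  rw [divOf_apply, v.ord_one, Finsupp.zero_apply]

theorem principal_ell_sub_divOf [IsCurve K F] {a : F} (ha : a ≠ 0) (D : Divisor K F) :
    ell (D - divOf a) = ell D :=
  (congrArg (fun W : Submodule K F => finrank K W) (span_singleton_mul_L ha D)).symm.trans
    (finrank_span_singleton_mul ha (L D))

variable [IsCurve K F] [IsCurve k Fk] (𝔊 : GRData K F k Fk)

namespace GRData

/-- the divisor of zeros of a section reduces to the divisor of zeros of its reduction -/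
theorem isRdiv_zeros {i : ℕ} (hi : 𝔊.i₀ ≤ i) {a : F} {ab : Fk} (ha : a ∈ L (i • 𝔊.M))
    (hr : 𝔊.Red a ab) (h0 : ab ≠ 0) :
    𝔊.IsRdiv (divOf a + i • 𝔊.M) (divOf ab + i • 𝔊.Mk) := by
  have ha0 : a ≠ 0 := hr.ne_zero h0
  have hab : ab ∈ L (i • 𝔊.Mk) := by
    rw [← 𝔊.redSub_L hi, RedData.mem_redSub]
    exact ⟨a, ha, hr⟩
  have hE : 0 ≤ divOf a + i • 𝔊.M := (mem_L_iff ha0).1 ha
  have hEb : 0 ≤ divOf ab + i • 𝔊.Mk := (mem_L_iff h0).1 hab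
  have hdE : dg (divOf a + i • 𝔊.M) = i * 𝔊.n := by
    rw [← 𝔊.dg_nsmul_M, dg, map_add, degree_divOf, zero_add]
  have hdEb : dg (divOf ab + i • 𝔊.Mk) = i * 𝔊.n := by
    rw [← 𝔊.dg_nsmul_Mk, dg, map_add, degree_divOf, zero_add]
  obtain ⟨i1, hi1⟩ := 𝔊.exists_big (dg (divOf a + i • 𝔊.M))
  have hbig : 𝔊.Big (dg (divOf a + i • 𝔊.M)) (i + max i1 𝔊.i₀) :=
    hi1 _ (le_trans (le_max_left _ _) (Nat.le_add_left _ _))
  refine 𝔊.isRdiv_of_le hE hEb (hdEb.trans hdE.symm) hbig ?_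
  have e1 : (i + max i1 𝔊.i₀) • 𝔊.Mk - (divOf ab + i • 𝔊.Mk) =
      (max i1 𝔊.i₀) • 𝔊.Mk - divOf ab := by
    rw [add_smul]; abel
  have e2 : (i + max i1 𝔊.i₀) • 𝔊.M - (divOf a + i • 𝔊.M) = (max i1 𝔊.i₀) • 𝔊.M - divOf a := by
    rw [add_smul]; abel
  rw [e1, e2, ← span_singleton_mul_L h0, ← span_singleton_mul_L ha0,
    ← 𝔊.redSub_L (le_max_right i1 𝔊.i₀)]
  refine le_trans (mul_le_mul' ?_ le_rfl) (RedData.redSub_mul_le _ _)
  rw [Submodule.span_singleton_le_iff_mem, RedData.mem_redSub]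
  exact ⟨a, Submodule.mem_span_singleton_self a, hr⟩

theorem IsRdiv.principal_nsmul {E : Divisor K F} {Eb : Divisor k Fk} (h : 𝔊.IsRdiv E Eb) (i : ℕ) :
    𝔊.IsRdiv (i • E) (i • Eb) := by
  induction i with
  | zero =>
    rw [zero_smul, zero_smul]
    exact 𝔊.isRdiv_zero
  | succ i ih =>
    rw [succ_nsmul, succ_nsmul]
    exact IsRdiv.add 𝔊 ih h

theorem isRdiv_M : 𝔊.IsRdiv 𝔊.M 𝔊.Mk := by
  obtain ⟨Mb, hMb⟩ := 𝔊.exists_isRdiv 𝔊.M_nonneg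
  have hone : (1 : F) ∈ L ((𝔊.i₀ + 1) • 𝔊.M) := by
    rw [mem_L_iff one_ne_zero, principal_divOf_one, zero_add]
    exact nsmul_nonneg 𝔊.M_nonneg _
  have h1 := 𝔊.isRdiv_zeros (Nat.le_succ 𝔊.i₀) hone RedData.Red.one one_ne_zero
  rw [principal_divOf_one, principal_divOf_one, zero_add, zero_add] at h1
  have h2 := IsRdiv.principal_nsmul 𝔊 hMb (𝔊.i₀ + 1)
  have h3 : (𝔊.i₀ + 1) • Mb = (𝔊.i₀ + 1) • 𝔊.Mk := IsRdiv.unique 𝔊 h2 h1
  have h4 : Mb = 𝔊.Mk := by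
    ext v
    have h5 := DFunLike.congr_fun h3 v
    rw [Finsupp.smul_apply, Finsupp.smul_apply, nsmul_eq_mul, nsmul_eq_mul] at h5
    exact mul_left_cancel₀ (by positivity) h5
  rwa [h4] at hMb

/-- cancellation -/
theorem IsRdiv.of_add {E E' : Divisor K F} {Eb Eb' : Divisor k Fk} (hE : 0 ≤ E)
    (h' : 𝔊.IsRdiv E' Eb') (h : 𝔊.IsRdiv (E + E') (Eb + Eb')) : 𝔊.IsRdiv E Eb := by
  obtain ⟨Eb₁, h₁⟩ := 𝔊.exists_isRdiv hE
  have h2 : Eb₁ + Eb' = Eb + Eb' := IsRdiv.unique 𝔊 (IsRdiv.add 𝔊 h₁ h') h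
  rwa [add_right_cancel h2] at h₁

theorem principal_dg_M_sub (i : ℕ) (E : Divisor K F) : dg (i • 𝔊.M - E) = i * 𝔊.n - dg E := by
  rw [← 𝔊.dg_nsmul_M, dg, dg, dg, map_sub]

theorem principal_dg_Mk_sub (i : ℕ) (Eb : Divisor k Fk) : dg (i • 𝔊.Mk - Eb) = i * 𝔊.n - dg Eb := by
  rw [← 𝔊.dg_nsmul_Mk, dg, dg, dg, map_sub]

omit [IsCurve K F] in
theorem principal_gen_nonneg : 0 ≤ gen K F := Int.natCast_nonneg _

/-- a scaled nonzero section of `L(iM - E)` -/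
theorem principal_exists_section {E : Divisor K F} (hE : 0 ≤ E) {i : ℕ} (hbig : 𝔊.Big (dg E) i) :
    ∃ (b : F) (bb : Fk), b ∈ L (i • 𝔊.M - E) ∧ b ∈ L (i • 𝔊.M) ∧ b ≠ 0 ∧ bb ≠ 0 ∧ 𝔊.Red b bb := by
  have hdeg : gen K F ≤ dg (i • 𝔊.M - E) := by
    rw [𝔊.principal_dg_M_sub]
    have h1 := hbig.2.1
    have h2 := bd_nonneg (K := K) (F := F)
    linarith
  obtain ⟨b₀, hb₀, hb₀0⟩ := exists_mem_L_ne_zero hdeg
  have hle : L (i • 𝔊.M - E) ≤ L (i • 𝔊.M) := L_mono (sub_le_self _ hE)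
  obtain ⟨c, hc, bb, hbb0, hbb⟩ := 𝔊.exists_scale hbig.1 (hle hb₀) hb₀0
  exact ⟨c • b₀, bb, Submodule.smul_mem _ c hb₀, hle (Submodule.smul_mem _ c hb₀),
    smul_ne_zero hc hb₀0, hbb0, hbb⟩

/-- **linear equivalence is preserved** -/
theorem IsRdiv.linEquiv {E E' : Divisor K F} {Eb Eb' : Divisor k Fk} (h : 𝔊.IsRdiv E Eb)
    (h' : 𝔊.IsRdiv E' Eb') {y : F} (hy : y ≠ 0) (e : E - E' = divOf y) :
    ∃ yb : Fk, yb ≠ 0 ∧ Eb - Eb' = divOf yb := by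
  obtain ⟨i, hi⟩ := 𝔊.exists_big (dg E')
  have hbig := hi i le_rfl
  obtain ⟨b, bb, hbL, hbL', hb0, hbb0, hbb⟩ := 𝔊.principal_exists_section h'.1 hbig
  have hR0 : 0 ≤ divOf b + (i • 𝔊.M - E') := (mem_L_iff hb0).1 hbL
  have hby : b * y ∈ L (i • 𝔊.M) := by
    rw [mem_L_iff (mul_ne_zero hb0 hy), divOf_mul hb0 hy, ← e]
    have e0 : divOf b + (E - E') + i • 𝔊.M = E + (divOf b + (i • 𝔊.M - E')) := by abel
    rw [e0]
    exact add_nonneg h.1 hR0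
  obtain ⟨c', hc', ab, hab0, hab⟩ := 𝔊.exists_scale hbig.1 hby (mul_ne_zero hb0 hy)
  have haL : c' • (b * y) ∈ L (i • 𝔊.M) := Submodule.smul_mem _ c' hby
  have hZa := 𝔊.isRdiv_zeros hbig.1 haL hab hab0
  have hZb := 𝔊.isRdiv_zeros hbig.1 hbL' hbb hbb0
  obtain ⟨Rb, hRb⟩ := 𝔊.exists_isRdiv hR0
  have e1 : divOf (c' • (b * y)) + i • 𝔊.M = E + (divOf b + (i • 𝔊.M - E')) := by
    rw [divOf_smul hc', divOf_mul hb0 hy, ← e]; abel
  have e2 : divOf b + i • 𝔊.M = E' + (divOf b + (i • 𝔊.M - E')) := by abel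
  rw [e1] at hZa
  rw [e2] at hZb
  have u1 : Eb + Rb = divOf ab + i • 𝔊.Mk := IsRdiv.unique 𝔊 (IsRdiv.add 𝔊 h hRb) hZa
  have u2 : Eb' + Rb = divOf bb + i • 𝔊.Mk := IsRdiv.unique 𝔊 (IsRdiv.add 𝔊 h' hRb) hZb
  refine ⟨ab * bb⁻¹, mul_ne_zero hab0 (inv_ne_zero hbb0), ?_⟩
  rw [divOf_mul hab0 (inv_ne_zero hbb0), divOf_inv]
  have e3 : Eb - Eb' = (Eb + Rb) - (Eb' + Rb) := by abel
  rw [e3, u1, u2]
  abel

/-- **semicontinuity** -/
theorem IsRdiv.ell_le {E : Divisor K F} {Eb : Divisor k Fk} (h : 𝔊.IsRdiv E Eb) :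
    ell E ≤ ell Eb := by
  obtain ⟨i, hi⟩ := 𝔊.exists_big (dg E)
  have hbig := hi i le_rfl
  have hdE : 0 ≤ dg E := degree_nonneg h.1
  have hg : 0 ≤ gen K F := principal_gen_nonneg
  obtain ⟨b, bb, hbL, hbL', hb0, hbb0, hbb⟩ := 𝔊.principal_exists_section h.1 hbig
  have hbbL : bb ∈ L (i • 𝔊.Mk - Eb) := by
    rw [← h.2.2.2 i hbig, RedData.mem_redSub]
    exact ⟨b, hbL, hbb⟩
  have hZb := 𝔊.isRdiv_zeros hbig.1 hbL' hbb hbb0
  have hdZ : dg (divOf b + i • 𝔊.M) = i * 𝔊.n := by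
    rw [← 𝔊.dg_nsmul_M, dg, map_add, degree_divOf, zero_add]
  have hbig2 : 𝔊.Big (dg (divOf b + i • 𝔊.M)) (i + i) := by
    rw [hdZ]
    refine ⟨le_trans hbig.1 (Nat.le_add_left _ _), ?_, ?_⟩
    · have h1 := hbig.2.1
      push_cast
      linarith
    · have h1 := hbig.2.2
      push_cast
      linarith
  have hW' : 𝔊.redSub (L (i • 𝔊.M - divOf b)) = L (i • 𝔊.Mk - divOf bb) := by
    have h1 := hZb.2.2.2 (i + i) hbig2
    have e1 : (i + i) • 𝔊.M - (divOf b + i • 𝔊.M) = i • 𝔊.M - divOf b := by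
      rw [add_smul]; abel
    have e2 : (i + i) • 𝔊.Mk - (divOf bb + i • 𝔊.Mk) = i • 𝔊.Mk - divOf bb := by
      rw [add_smul]; abel
    rwa [e1, e2] at h1
  have hl0 : E - divOf b ≤ i • 𝔊.M := by
    rw [← sub_nonneg]
    have e3 : i • 𝔊.M - (E - divOf b) = divOf b + (i • 𝔊.M - E) := by abel
    rw [e3]
    exact (mem_L_iff hb0).1 hbL
  have hl0' : Eb - divOf bb ≤ i • 𝔊.Mk := by
    rw [← sub_nonneg]
    have e3 : i • 𝔊.Mk - (Eb - divOf bb) = divOf bb + (i • 𝔊.Mk - Eb) := by abel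
    rw [e3]
    exact (mem_L_iff hbb0).1 hbbL
  have hc1 : colon (L (i • 𝔊.M)) (L (i • 𝔊.M - E)) (L (i • 𝔊.M - divOf b)) = L (E - divOf b) := by
    have hd1 : bd K F + 1 ≤ dg (i • 𝔊.M - E) := by
      rw [𝔊.principal_dg_M_sub]
      have h1 := hbig.2.1
      linarith
    have e1 : i • 𝔊.M - divOf b - (i • 𝔊.M - E) = E - divOf b := by abel
    have h3 := colon_L_of_le (D₁ := i • 𝔊.M) (D' := i • 𝔊.M - divOf b) hd1 (by rw [e1]; exact hl0)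
    rwa [e1] at h3
  have hc2 : colon (L (i • 𝔊.Mk)) (L (i • 𝔊.Mk - Eb)) (L (i • 𝔊.Mk - divOf bb)) =
      L (Eb - divOf bb) := by
    have hd1 : bd k Fk + 1 ≤ dg (i • 𝔊.Mk - Eb) := by
      rw [𝔊.principal_dg_Mk_sub, h.2.2.1]
      have h1 := hbig.2.2
      linarith
    have e1 : i • 𝔊.Mk - divOf bb - (i • 𝔊.Mk - Eb) = Eb - divOf bb := by abel
    have h3 := colon_L_of_le (D₁ := i • 𝔊.Mk) (D' := i • 𝔊.Mk - divOf bb) hd1
      (by rw [e1]; exact hl0')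
    rwa [e1] at h3
  have key : 𝔊.redSub (L (E - divOf b)) ≤ L (Eb - divOf bb) := by
    rw [← hc1, ← hc2]
    have h4 := RedData.redSub_colon_le (R := 𝔊.toRedData) (L (i • 𝔊.M)) (L (i • 𝔊.M - E))
      (L (i • 𝔊.M - divOf b))
    rwa [𝔊.redSub_L hbig.1, h.2.2.2 i hbig, hW'] at h4
  calc ell E = finrank K (L (E - divOf b)) := (principal_ell_sub_divOf hb0 E).symm
    _ = finrank k (𝔊.redSub (L (E - divOf b))) := (𝔊.finrank_redSub hbig.1 (L_mono hl0)).symm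
    _ ≤ finrank k (L (Eb - divOf bb)) := Submodule.finrank_mono key
    _ = ell Eb := principal_ell_sub_divOf hbb0 Eb

end GRData

end Fermat.Agent.S19.KM
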