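import Fermat.Agent.S19.KM.Curve.Basic
import Fermat.Agent.S19.KM.Red.Basic
import Fermat.Agent.S19.KM.GR.Semilinear
import Fermat.Agent.S19.KM.Deuring.Basic
import Fermat.Agent.S19.KM.Deuring.Exists
import Fermat.Agent.S19.KM.Deuring.Add
import Fermat.Agent.S19.KM.Deuring.Principal
import Fermat.Agent.S19.KM.Deuring.Galois

/-!
# S19 / KM route, section D6: rigid lifts of places   (owner: helper79)

* `isRdiv_fibre` : the fibre of `x` over `a` reduces to the fibre of `xk` over `res a`.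
* `exists_rigid_lift` : all but finitely many places of the reduced curve have a lift fixed by the
  inertia group.
-/

set_option autoImplicit false

noncomputable section

namespace Fermat.Agent.S19.KM

open AlgebraicCurve Fermat.Agent.S24.FF Fermat.Agent.Lib.RR Module Submodule

variable {K F k Fk : Type*} [Field K] [Field F] [Algebra K F] [Field k] [Field Fk] [Algebra k Fk]

namespace Rigid

/-- subtracting a constant does not change the poles -/
theorem ord_sub_const_of_neg (v : Place K F) {x : F} (c : K) (h : v.ord x < 0) :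
    v.ord (x - algebraMap K F c) = v.ord x := by
  have hx : x ≠ 0 := ne_zero_of_ord_ne_zero v (by omega)
  rw [sub_eq_add_neg]
  apply ord_add_eq_of_lt v hx
  rw [ord_neg, ord_algebraMap]
  exact h

/-- `div (x - c) + (x)_∞ ≥ 0` -/
theorem divOf_sub_const_add_poleDiv_nonneg [IsCurve K F] (x : F) (c : K) :
    0 ≤ divOf (K := K) (x - algebraMap K F c) + poleDiv x := by
  intro v
  rw [Finsupp.add_apply, divOf_apply, poleDiv_apply, Finsupp.coe_zero, Pi.zero_apply]
  rcases lt_or_ge (v.ord x) 0 with h | h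
  · rw [ord_sub_const_of_neg v c h, max_eq_right (by omega)]
    omega
  · have h1 : 0 ≤ v.ord (x - algebraMap K F c) :=
      ord_nonneg_of_mem v (sub_mem (mem_of_ord_nonneg v h) (v.algebraMap_mem' c))
    have h2 : (0 : ℤ) ≤ max 0 (-v.ord x) := le_max_left _ _
    omega

theorem sub_const_ne_zero {x : F} (hx : Transcendental K x) (c : K) :
    x - algebraMap K F c ≠ 0 := by
  intro h
  rw [sub_eq_zero] at h
  exact hx (h ▸ isAlgebraic_algebraMap c)

end Rigid

variable [IsCurve K F] [IsCurve k Fk] (𝔊 : GRData K F k Fk)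

namespace GRData

theorem Rigid.isRdiv_nsmul {E : Divisor K F} {Eb : Divisor k Fk} (h : 𝔊.IsRdiv E Eb) (m : ℕ) :
    𝔊.IsRdiv (m • E) (m • Eb) := by
  induction m with
  | zero => simpa using 𝔊.isRdiv_zero
  | succ m ih =>
    rw [succ_nsmul, succ_nsmul]
    exact IsRdiv.add 𝔊 ih h

/-- the fibre of `x` over `a` reduces to the fibre of `xk` over `res a` -/
theorem isRdiv_fibre (a : 𝔊.A) :
    𝔊.IsRdiv (divOf (𝔊.x - algebraMap K F (a : K)) + 𝔊.M)
      (divOf (𝔊.xk - algebraMap k Fk (𝔊.res a)) + 𝔊.Mk) := by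
  have hE : 0 ≤ divOf (𝔊.x - algebraMap K F (a : K)) + 𝔊.M :=
    Rigid.divOf_sub_const_add_poleDiv_nonneg 𝔊.x (a : K)
  have hne : 𝔊.x - algebraMap K F (a : K) ≠ 0 := Rigid.sub_const_ne_zero 𝔊.x_tr _
  have hneb : 𝔊.xk - algebraMap k Fk (𝔊.res a) ≠ 0 := Rigid.sub_const_ne_zero 𝔊.xk_tr _
  have hred : 𝔊.Red (𝔊.x - algebraMap K F (a : K)) (𝔊.xk - algebraMap k Fk (𝔊.res a)) :=
    RedData.Red.sub 𝔊.red_x (RedData.Red.algebraMap a)
  have hmem : 𝔊.x - algebraMap K F (a : K) ∈ L ((𝔊.i₀ + 1) • 𝔊.M) := by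
    rw [mem_L_iff hne, succ_nsmul', ← add_assoc]
    exact add_nonneg hE (nsmul_nonneg 𝔊.M_nonneg _)
  have h1 := 𝔊.isRdiv_zeros (Nat.le_succ 𝔊.i₀) hmem hred hneb
  rw [succ_nsmul', succ_nsmul', ← add_assoc, ← add_assoc] at h1
  exact IsRdiv.of_add 𝔊 hE (Rigid.isRdiv_nsmul 𝔊 𝔊.isRdiv_M 𝔊.i₀) h1

omit [IsCurve K F] in
/-- an effective divisor is the sum of its points -/
theorem Rigid.eq_sum_pt {E : Divisor K F} (hE : 0 ≤ E) :
    E = ∑ P ∈ E.support, (E P).toNat • pt P := by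
  conv_lhs => rw [← Finsupp.sum_single E]
  refine Finset.sum_congr rfl fun P _ => ?_
  rw [Finsupp.smul_single, nsmul_eq_mul, mul_one, Int.toNat_of_nonneg (hE P)]

/-- reduce an effective divisor point by point -/
theorem Rigid.isRdiv_sum_pt {E : Divisor K F} (hE : 0 ≤ E) (q : Place K F → Place k Fk)
    (hq : ∀ P, 𝔊.IsRdiv (pt P) (pt (q P))) :
    𝔊.IsRdiv E (∑ P ∈ E.support, (E P).toNat • pt (q P)) := by
  have h := IsRdiv.sum 𝔊 E.support (E := fun P => (E P).toNat • pt P)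
    (Eb := fun P => (E P).toNat • pt (q P)) fun P _ => Rigid.isRdiv_nsmul 𝔊 (hq P) _
  rwa [← Rigid.eq_sum_pt hE] at h

/-- a simple point of the reduction has exactly one lift in the support -/
theorem Rigid.exists_unique_lift {E : Divisor K F} {Eb : Divisor k Fk} (h : 𝔊.IsRdiv E Eb)
    (q : Place K F → Place k Fk) (hq : ∀ P, 𝔊.IsRdiv (pt P) (pt (q P))) {Q : Place k Fk}
    (hQ : Eb Q = 1) :
    ∃ P, E P ≠ 0 ∧ q P = Q ∧ ∀ P', E P' ≠ 0 → q P' = Q → P' = P := by
  classical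
  have hE : 0 ≤ E := h.1
  have e := IsRdiv.unique 𝔊 h (Rigid.isRdiv_sum_pt 𝔊 hE q hq)
  have e1 : (1 : ℤ) = ∑ P ∈ E.support.filter (fun P => q P = Q), ((E P).toNat : ℤ) := by
    rw [← hQ, e, Finsupp.finsetSum_apply, Finset.sum_filter]
    refine Finset.sum_congr rfl fun P _ => ?_
    rw [Finsupp.smul_apply, Finsupp.single_apply]
    split_ifs <;> simp
  have hpos : ∀ P ∈ E.support.filter (fun P => q P = Q), (1 : ℤ) ≤ ((E P).toNat : ℤ) := by
    intro P hP
    have h1 : E P ≠ 0 := Finsupp.mem_support_iff.mp (Finset.mem_filter.mp hP).1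
    have h2 : (0 : ℤ) ≤ E P := hE P
    rw [Int.toNat_of_nonneg h2]
    omega
  have hcard : ((E.support.filter (fun P => q P = Q)).card : ℤ) ≤ 1 := by
    rw [e1]
    calc ((E.support.filter (fun P => q P = Q)).card : ℤ)
        = ∑ _P ∈ E.support.filter (fun P => q P = Q), (1 : ℤ) := by simp
      _ ≤ _ := Finset.sum_le_sum hpos
  have hne : (E.support.filter (fun P => q P = Q)).Nonempty := by
    rw [Finset.nonempty_iff_ne_empty]
    intro h0
    rw [h0, Finset.sum_empty] at e1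
    exact one_ne_zero e1
  obtain ⟨P, hP⟩ := hne
  refine ⟨P, Finsupp.mem_support_iff.mp (Finset.mem_filter.mp hP).1, (Finset.mem_filter.mp hP).2,
    fun P' h1 h2 => ?_⟩
  have hP' : P' ∈ E.support.filter (fun P => q P = Q) :=
    Finset.mem_filter.mpr ⟨Finsupp.mem_support_iff.mpr h1, h2⟩
  exact Finset.card_le_one.mp (by exact_mod_cast hcard) P' hP' P hP

/-- **rigid lifts of places** -/
theorem exists_rigid_lift : ∃ U : Set (Place k Fk), Uᶜ.Finite ∧ ∀ Q ∈ U, ∃ P : Place K F,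
    𝔊.IsRdiv (pt P) (pt Q) ∧ ∀ g ∈ 𝔊.Γ, 𝔊.IsIne g → g • P = P := by
  classical
  choose q hq using 𝔊.exists_isRdiv_pt
  set bad : Set k := {c : k | ∃ w : Place k Fk, 2 ≤ w.ord (𝔊.xk - algebraMap k Fk c)} with hbad
  refine ⟨{Q | 𝔊.Mk Q = 0 ∧ ∀ c ∈ bad, Q.ord (𝔊.xk - algebraMap k Fk c) = 0}, ?_, ?_⟩
  · refine ((𝔊.Mk.support.finite_toSet).union (𝔊.finite_bad.biUnion fun c _ =>
      finite_ord_ne_zero (K := k) (𝔊.xk - algebraMap k Fk c))).subset ?_
    intro Q hQ
    simp only [Set.mem_compl_iff, Set.mem_ofPred_eq, not_and, not_forall] at hQ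
    by_cases h0 : 𝔊.Mk Q = 0
    · obtain ⟨c, hc, hc'⟩ := hQ h0
      exact Or.inr (Set.mem_biUnion hc hc')
    · exact Or.inl (Finsupp.mem_support_iff.mpr h0)
  · rintro Q ⟨hQ0, hQbad⟩
    have hord : 0 ≤ Q.ord 𝔊.xk := by
      have h1 : max 0 (-Q.ord 𝔊.xk) = 0 := hQ0
      have h2 := le_max_right 0 (-Q.ord 𝔊.xk)
      omega
    obtain ⟨c, hc⟩ := exists_const_of_ord_nonneg Q hord
    have hc1 : 0 < Q.ord (𝔊.xk - algebraMap k Fk c) := by
      rcases hc with hc | hc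
      · exact absurd (sub_eq_zero.mpr hc) (Rigid.sub_const_ne_zero 𝔊.xk_tr c)
      · exact hc
    have hcbad : c ∉ bad := fun h => by
      have := hQbad c h
      omega
    have hc2 : Q.ord (𝔊.xk - algebraMap k Fk c) = 1 := by
      have h1 : ¬ 2 ≤ Q.ord (𝔊.xk - algebraMap k Fk c) := fun h => hcbad ⟨Q, h⟩
      omega
    obtain ⟨a, rfl, ha⟩ := 𝔊.exists_teich c
    have hfib := 𝔊.isRdiv_fibre a
    have hEbQ : (divOf (𝔊.xk - algebraMap k Fk (𝔊.res a)) + 𝔊.Mk : Divisor k Fk) Q = 1 := by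
      rw [Finsupp.add_apply, divOf_apply, hc2, hQ0, add_zero]
    obtain ⟨P, hP0, hPQ, huniq⟩ := Rigid.exists_unique_lift 𝔊 hfib q hq hEbQ
    refine ⟨P, hPQ ▸ hq P, fun g hg hi => ?_⟩
    have hgE : g • (divOf (𝔊.x - algebraMap K F (a : K)) + 𝔊.M) =
        divOf (𝔊.x - algebraMap K F (a : K)) + 𝔊.M := by
      rw [smul_add, smul_divOf, smul_sub, 𝔊.Γ_x g hg, SemilinearAut.smul_algebraMap, ha g hg hi,
        𝔊.smul_M hg]
    apply huniq
    · rw [← hgE, SemilinearAut.divisor_smul_apply_smul]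
      exact hP0
    · have h1 : 𝔊.IsRdiv (pt (g • P)) (pt Q) := by
        have := IsRdiv.smul_ine 𝔊 (hPQ ▸ hq P : 𝔊.IsRdiv (pt P) (pt Q)) hg hi
        rwa [SemilinearAut.smul_single] at this
      have h2 := IsRdiv.unique 𝔊 (hq (g • P)) h1
      exact Finsupp.single_left_injective one_ne_zero h2

end GRData

end Fermat.Agent.S19.KM
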