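import Fermat.Agent.S19.KM.Curve.Basic
import Fermat.Agent.S19.KM.Curve.General
import Fermat.Agent.S19.KM.GR.Semilinear
import Fermat.Agent.S19.KM.GR.Dec
import Fermat.Agent.S19.KM.Deuring.Basic
import Fermat.Agent.S19.KM.Deuring.Exists
import Fermat.Agent.S19.KM.Deuring.Add
import Fermat.Agent.S19.KM.Deuring.Principal
import Fermat.Agent.S19.KM.Deuring.Galois
import Fermat.Agent.S19.KM.Deuring.Rigid

/-!
# S19 / KM route, layer [D], section D7: admissible divisors `E₀` and the divisors `E_P`.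
Owner: helper266.
-/

set_option autoImplicit false

noncomputable section

namespace Fermat.Agent.S19.KM

open AlgebraicCurve Fermat.Agent.S24.FF Fermat.Agent.Lib.RR Module Submodule

variable {K F k Fk : Type*} [Field K] [Field F] [Algebra K F] [Field k] [Field Fk] [Algebra k Fk]

namespace Adm

theorem dg_add (D D' : Divisor K F) : dg (D + D') = dg D + dg D' := map_add _ _ _

theorem dg_sub (D D' : Divisor K F) : dg (D - D') = dg D - dg D' := map_sub _ _ _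

theorem dg_sum {J : Type*} (t : Finset J) (E : J → Divisor K F) :
    dg (∑ j ∈ t, E j) = ∑ j ∈ t, dg (E j) := map_sum _ _ _

theorem dg_nsmul (n : ℕ) (D : Divisor K F) : dg (n • D) = n * dg D := by
  rw [dg, map_nsmul, nsmul_eq_mul]

theorem dg_smul (g : SemilinearAut K F) (D : Divisor K F) : dg (g • D) = dg D :=
  SemilinearAut.degree_smul g D

theorem dg_eq_zero_of_rep {D : Divisor K F} {c : Pic0 K F} (h : Rep D c) : dg D = 0 := by
  obtain ⟨h0, -⟩ := h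
  exact h0

theorem pt_nonneg (v : Place K F) : (0 : Divisor K F) ≤ pt v := by
  intro w
  rw [Finsupp.coe_zero, Pi.zero_apply]
  by_cases h : v = w
  · subst h; simp
  · rw [Finsupp.single_eq_of_ne' h] 

end Adm

open Adm

variable [IsCurve K F] [IsCurve k Fk] (𝔊 : GRData K F k Fk)

namespace GRData

variable {X : Type*} [AddCommGroup X] (ι : X →+ Pic0 K F)

theorem exists_isEP {E₀ : Divisor K F} (hdeg : dg E₀ = gen K F) (P : X) : ∃ E, IsEP ι E₀ P E := by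
  obtain ⟨D, hD⟩ := exists_rep (ι P)
  have h1 : gen K F ≤ dg (D + E₀) := by
    rw [dg_add, dg_eq_zero_of_rep hD, hdeg, zero_add]
  obtain ⟨f, hf, hf0⟩ := exists_mem_L_ne_zero h1
  refine ⟨divOf f + (D + E₀), (mem_L_iff hf0).mp hf, ?_⟩
  refine hD.of_divOf hf0 ?_
  abel

omit [IsCurve K F] in
theorem IsEP.dg_eq {ι : X →+ Pic0 K F} {E₀ : Divisor K F} {P : X} {E : Divisor K F}
    (h : IsEP ι E₀ P E) : dg E = dg E₀ := by
  have := dg_eq_zero_of_rep h.2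
  rw [dg_sub, sub_eq_zero] at this
  exact this

theorem exists_isAdm [Finite X] : ∃ E₀, 𝔊.IsAdm ι E₀ := by
  classical
  have := Fintype.ofFinite X
  -- the auxiliary divisor `G₀`
  obtain ⟨Ps⟩ : Nonempty (Place K F) := (infinite_place (K := K) (F := F)).nonempty
  set G₀ : Divisor K F := (genusFF K F) • pt Ps with hG₀
  have hG₀deg : dg G₀ = gen K F := by
    rw [hG₀, dg_nsmul, dg_pt, mul_one]
  have hG₀nn : 0 ≤ G₀ := nsmul_nonneg (pt_nonneg Ps) _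
  choose G hG using fun P : X => exists_isEP ι hG₀deg P
  obtain ⟨G₀b, hG₀b⟩ := 𝔊.exists_isRdiv hG₀nn
  choose Gb hGb using fun P : X => 𝔊.exists_isRdiv (hG P).1
  obtain ⟨U, hU, hlift⟩ := 𝔊.exists_rigid_lift
  obtain ⟨Q, -, hQU, hQ⟩ := exists_nonspecial (Finset.univ.image fun P : X => Gb P - G₀b)
    (by
      intro D hD
      obtain ⟨P, -, rfl⟩ := Finset.mem_image.mp hD
      rw [dg_sub, (hGb P).2.2.1, hG₀b.2.2.1, (hG P).dg_eq, sub_self]) U hU
  choose Pl hPl using fun i => hlift (Q i) (hQU i)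
  refine ⟨∑ i, pt (Pl i), Finset.sum_nonneg fun i _ => pt_nonneg _, ?_, ?_, ?_⟩
  · rw [dg_sum]
    simp only [dg_pt, Finset.sum_const, Finset.card_univ, Fintype.card_fin, nsmul_eq_mul, mul_one]
    exact 𝔊.genus_eq.symm
  · intro g hg hi
    rw [Finset.smul_sum]
    refine Finset.sum_congr rfl fun i _ => ?_
    rw [SemilinearAut.smul_single, (hPl i).2 g hg hi]
  · intro P E Eb hE hEb
    obtain ⟨y, hy, hy'⟩ := hE.2.exists_divOf (hG P).2
    have hE₀b : 𝔊.IsRdiv (∑ i, pt (Pl i)) (∑ i, pt (Q i)) :=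
      IsRdiv.sum 𝔊 Finset.univ fun i _ => (hPl i).1
    have e : (E + G₀) - (G P + ∑ i, pt (Pl i)) = divOf y := by
      rw [← hy']; abel
    obtain ⟨yb, hyb, hyb'⟩ := IsRdiv.linEquiv 𝔊 (IsRdiv.add 𝔊 hEb hG₀b) (IsRdiv.add 𝔊 (hGb P) hE₀b) hy e
    have h1 : Eb = (Gb P - G₀b + ∑ i, pt (Q i)) + divOf yb := by
      rw [← hyb']; abel
    rw [h1, ell, finrank_L_add_divOf _ hyb]
    exact hQ _ (Finset.mem_image_of_mem _ (Finset.mem_univ P))

variable {𝔊 ι}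

theorem IsAdm.isEP_EP {E₀ : Divisor K F} (h : 𝔊.IsAdm ι E₀) (P : X) :
    IsEP ι E₀ P (EP ι E₀ P) := by
  have hex := exists_isEP ι h.deg P
  rw [EP, dif_pos hex]
  exact hex.choose_spec

theorem IsAdm.dg_EP {E₀ : Divisor K F} (h : 𝔊.IsAdm ι E₀) (P : X) :
    dg (EP ι E₀ P) = gen K F := by
  rw [(h.isEP_EP P).dg_eq, h.deg]

theorem IsAdm.eq_EP {E₀ : Divisor K F} (h : 𝔊.IsAdm ι E₀) {P : X} {E : Divisor K F}
    (hE : IsEP ι E₀ P E) : E = EP ι E₀ P := by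
  have hE' := h.isEP_EP P
  obtain ⟨y, hy, hy'⟩ := hE.2.exists_divOf hE'.2
  obtain ⟨Eb, hEb⟩ := 𝔊.exists_isRdiv hE'.1
  have h1 : ell (EP ι E₀ P) ≤ 1 := (h.one P _ Eb hE' hEb) ▸ IsRdiv.ell_le 𝔊 hEb
  have h2 : (1 : ℤ) ≤ ell (EP ι E₀ P) := by
    have := le_ell (EP ι E₀ P)
    rw [h.dg_EP P] at this
    linarith
  have h3 : ell (EP ι E₀ P) = 1 := by omega
  refine eq_of_ell_eq_one hE'.1 hE.1 h3 hy ?_
  rw [← hy']; abel

theorem IsAdm.smul {E₀ : Divisor K F} (h : 𝔊.IsAdm ι E₀) {g : SemilinearAut K F} (hg : g ∈ 𝔊.Γ)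
    (hd : 𝔊.IsDec g) (hstab : ∀ P : X, ∃ P' : X, ι P' = g⁻¹ • ι P) : 𝔊.IsAdm ι (g • E₀) := by
  refine ⟨(smul_nonneg_iff g E₀).mpr h.eff, by rw [dg_smul, h.deg], ?_, ?_⟩
  · intro h' hh' hi
    have h1 : 𝔊.IsIne (g⁻¹ * h' * g) := by
      have := RedData.IsIne.conj 𝔊.red_surjective (RedData.IsDec.inv hd) hi
      rwa [inv_inv] at this
    have h2 := h.ine (g⁻¹ * h' * g) (𝔊.Γ.mul_mem (𝔊.Γ.mul_mem (𝔊.Γ.inv_mem hg) hh') hg) h1
    calc h' • g • E₀ = g • ((g⁻¹ * h' * g) • E₀) := by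
          rw [← mul_smul, ← mul_smul]; congr 1; group
      _ = g • E₀ := by rw [h2]
  · intro P E Eb hE hEb
    obtain ⟨P', hP'⟩ := hstab P
    obtain ⟨gb, hgb⟩ := 𝔊.exists_smul_dec (𝔊.Γ.inv_mem hg) (RedData.IsDec.inv hd)
    have h1 : IsEP ι E₀ P' (g⁻¹ • E) := by
      refine ⟨(smul_nonneg_iff g⁻¹ E).mpr hE.1, ?_⟩
      have := hE.2.smul g⁻¹
      rwa [smul_sub, inv_smul_smul, ← hP'] at this
    have h2 := h.one P' _ _ h1 (hgb E Eb hEb)
    rwa [ell_smul] at h2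

theorem IsAdm.smul_EP {E₀ : Divisor K F} (h : 𝔊.IsAdm ι E₀) {g : SemilinearAut K F} (hg : g ∈ 𝔊.Γ)
    (hd : 𝔊.IsDec g) (hstab : ∀ P : X, ∃ P' : X, ι P' = g⁻¹ • ι P) {P P' : X}
    (hP : ι P' = g • ι P) : EP ι (g • E₀) P' = g • EP ι E₀ P := by
  have hE := h.isEP_EP P
  refine ((h.smul hg hd hstab).eq_EP ⟨(smul_nonneg_iff g _).mpr hE.1, ?_⟩).symm
  have := hE.2.smul g
  rwa [smul_sub, ← hP] at this

end GRData

end Fermat.Agent.S19.KM
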